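import Fermat.Agent.CFT.Tangent.Derivation
import Fermat.Agent.CFT.Tangent.Dual
import Fermat.Agent.Deform.Residual
import Fermat.Prelude.Def_GaloisRep_LocalConditions

/-!
The dictionary between derivations of a deformation ring and adjoint cocycles.
-/

set_option autoImplicit false
set_option linter.style.haveILetI false

noncomputable section

namespace Fermat.Agent.CFT.Tangent

open IsLocalRing Fermat.Agent.Deform Module

variable {𝒪 : Type} [CommRing 𝒪] [IsLocalRing 𝒪]
variable {R : Type} [CommRing R] [IsLocalRing R] [Algebra 𝒪 R]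
variable {W : Rigid 𝒪} (h : IsResAlg 𝒪 R) (ru : Gal →* M2 R)

/-- Coboundaries of the untwisted adjoint representation. -/
def cobdLin {k : Type} [Field k] {G : Type} [Group G] (r : G →* M2 k) :
    M2 k →ₗ[k] (G → M2 k) where
  toFun X g := r g * X * r g⁻¹ - X
  map_add' X Y := funext fun g => by
    simp only [Pi.add_apply, mul_add, add_mul]; abel
  map_smul' c X := funext fun g => by
    simp only [Pi.smul_apply, RingHom.id_apply, mul_smul_comm, smul_mul_assoc, smul_sub]

variable (W) in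
/-- The matrix valued cocycle of a derivation. -/
def tangentCls : tangentDer h →ₗ[ResidueField 𝒪] (Gal → M2 (ResidueField 𝒪)) where
  toFun δ σ := (Matrix.of fun i j => δ.1 (ru σ i j)) * W.rb σ⁻¹
  map_add' δ δ' := funext fun σ => by
    rw [Pi.add_apply, ← add_mul]; rfl
  map_smul' c δ := funext fun σ => by
    rw [Pi.smul_apply, RingHom.id_apply, ← smul_mul_assoc]; rfl

variable {h ru}

theorem fstM_tangentHom (hl : Lifts W h ru) (δ : tangentDer h) (σ : Gal) :
    letI := dualAlgebra 𝒪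
    fstM (mapM (tangentHom h δ : R →+* DualNumber (ResidueField 𝒪)) ru σ) = W.rb σ := by
  ext i j
  exact hl σ i j

variable (W) in
theorem sndM_tangentHom (δ : tangentDer h) (σ : Gal) :
    letI := dualAlgebra 𝒪
    sndM (mapM (tangentHom h δ : R →+* DualNumber (ResidueField 𝒪)) ru σ) =
      tangentCls W h ru δ σ * W.rb σ := by
  show _ = (_ * W.rb σ⁻¹) * W.rb σ
  rw [mul_assoc, ← map_mul, inv_mul_cancel, map_one, mul_one]
  rfl

theorem mapM_tangentHom (hl : Lifts W h ru) (δ : tangentDer h) (σ : Gal) :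
    letI := dualAlgebra 𝒪
    mapM (tangentHom h δ : R →+* DualNumber (ResidueField 𝒪)) ru σ =
      (1 + epsM (tangentCls W h ru δ σ)) * inlM (W.rb σ) := by
  letI := dualAlgebra 𝒪
  refine dualM_ext ?_ ?_
  · rw [fstM_tangentHom hl]; simp
  · rw [sndM_tangentHom W]; simp

theorem tangentCls_mul (hl : Lifts W h ru) (δ : tangentDer h) (g g' : Gal) :
    tangentCls W h ru δ (g * g') =
      W.rb g * tangentCls W h ru δ g' * W.rb g⁻¹ + tangentCls W h ru δ g := by
  letI := dualAlgebra 𝒪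
  have h1 := congrArg sndM
    (map_mul (mapM (tangentHom h δ : R →+* DualNumber (ResidueField 𝒪)) ru) g g')
  rw [sndM_mul, fstM_tangentHom hl, fstM_tangentHom hl, sndM_tangentHom W, sndM_tangentHom W,
    sndM_tangentHom W] at h1
  have e : ∀ σ, W.rb σ * W.rb σ⁻¹ = 1 := fun σ => by rw [← map_mul, mul_inv_cancel, map_one]
  have h2 := congrArg (fun M => M * W.rb (g * g')⁻¹) h1
  simp only [mul_assoc, e, mul_one, add_mul] at h2
  rw [h2, mul_inv_rev, map_mul]
  simp only [← mul_assoc]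
  rw [mul_assoc _ (W.rb g') (W.rb g'⁻¹), e, mul_one, mul_assoc _ (W.rb g) (W.rb g'),
    ← map_mul W.rb g g']
  congr 1
  rw [map_mul, ← mul_assoc, mul_assoc _ (W.rb g') (W.rb g'⁻¹), e, mul_one,
    mul_assoc _ (W.rb g) (W.rb g⁻¹), e, mul_one]

theorem tangentCls_finiteLevel (hr : IsCont ru) (δ : tangentDer h) :
    ∃ L : IntermediateField ℚ (AlgebraicClosure ℚ), FiniteDimensional ℚ L ∧
      ∀ σ : Gal, (∀ x ∈ L, σ x = x) → tangentCls W h ru δ σ = 0 := by
  obtain ⟨L, hL, h1⟩ := hr 2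
  refine ⟨L, hL, fun σ hσ => ?_⟩
  have hkill : ∀ a ∈ maximalIdeal R ^ 2, δ.1 a = 0 := by
    intro a ha
    rw [pow_two] at ha
    refine Submodule.mul_induction_on ha (fun x hx y hy => ?_) (fun x y hx hy => ?_)
    · rw [δ.2.2.1, (augment_eq_zero_iff h x).mpr hx, (augment_eq_zero_iff h y).mpr hy]
      ring
    · rw [δ.2.1, hx, hy, add_zero]
  show (Matrix.of fun i j => δ.1 (ru σ i j)) * _ = 0
  convert zero_mul (W.rb σ⁻¹)
  ext i j
  have h2 := hkill _ (h1 σ hσ i j)
  have h3 := δ.2.1 (ru σ i j - (1 : M2 R) i j) ((1 : M2 R) i j)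
  rw [sub_add_cancel, h2, zero_add] at h3
  show δ.1 (ru σ i j) = 0
  rw [h3]
  by_cases hij : i = j
  · subst hij; rw [Matrix.one_apply_eq]; exact tangentDer_one h δ
  · rw [Matrix.one_apply_ne hij]; exact tangentDer_zero h δ

theorem exists_pow_eq_on_roots (p : ℕ) [NeZero p] (σ : Gal) :
    ∃ a : ℕ, ∀ μ : AlgebraicClosure ℚ, μ ^ p = 1 → σ μ = μ ^ a := by
  obtain ⟨ζ, hζ⟩ := HasEnoughRootsOfUnity.exists_primitiveRoot (AlgebraicClosure ℚ) p
  obtain ⟨a, -, ha⟩ := hζ.eq_pow_of_pow_eq_one (ξ := σ ζ) (by rw [← map_pow, hζ.pow_eq_one, map_one])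
  refine ⟨a, fun μ hμ => ?_⟩
  obtain ⟨i, -, rfl⟩ := hζ.eq_pow_of_pow_eq_one hμ
  rw [map_pow, ← ha, ← pow_mul, ← pow_mul, mul_comm]

theorem trace_eq_zero_of_det {k : Type} [Field k] (p : ℕ) [Fact p.Prime] [CharP k p]
    {ρ : GaloisRepAdic (DualNumber k)} (hdet : ρ.DetIsCyclotomic p)
    {B : Basis (Fin 2) (DualNumber k) ρ.V} {r : Gal →* M2 k} {b : Gal → M2 k}
    (hB : ∀ σ, matOf ρ B σ = (1 + epsM (b σ)) * inlM (r σ)) (σ : Gal) : (b σ).trace = 0 := by
  haveI : NeZero p := ⟨(Fact.out : p.Prime).ne_zero⟩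
  obtain ⟨a, ha⟩ := exists_pow_eq_on_roots p σ
  have h0 : ((p ^ 1 : ℕ) : DualNumber k) = 0 := by
    rw [pow_one, ← map_natCast (algebraMap k (DualNumber k)) p, CharP.cast_eq_zero, map_zero]
  have h1 := hdet.2 1 σ a (by simpa using ha)
  rw [h0, Ideal.span_singleton_eq_bot.mpr rfl, Ideal.mem_bot, sub_eq_zero] at h1
  have h1' : (matOf ρ B σ).det = (a : DualNumber k) := by
    rw [← h1, ← LinearMap.det_toMatrix B]
    rfl
  rw [hB] at h1'
  have h2 := congrArg TrivSqZeroExt.snd h1'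
  rw [snd_det, TrivSqZeroExt.snd_natCast] at h2
  simp only [fstM_mul, sndM_mul, fstM_add, sndM_add, fstM_one, sndM_one, fstM_epsM, sndM_epsM,
    fstM_inlM, sndM_inlM, add_zero, zero_add, one_mul, mul_zero] at h2
  rw [adjugate_of_monoidHom, smul_mul_assoc, Matrix.trace_smul, smul_eq_mul, mul_eq_zero,
    Matrix.trace_mul_comm, mul_assoc, ← map_mul, mul_inv_cancel, map_one, mul_one] at h2
  exact h2.resolve_left (((Group.isUnit σ).map r).map Matrix.detMonoidHom).ne_zero

theorem isAdicComplete_of_sq_eq_bot {A : Type} [CommRing A] [IsLocalRing A]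
    (hA : maximalIdeal A ^ 2 = ⊥) : IsAdicComplete (maximalIdeal A) A where
  haus' x hx := by
    have h2 := hx 2
    rw [smul_eq_mul, Ideal.mul_top, hA, SModEq.bot] at h2
    exact h2
  prec' f hf := by
    refine ⟨f 2, fun n => ?_⟩
    rcases le_total n 2 with hn | hn
    · exact hf hn
    · have h2 := hf hn
      rw [smul_eq_mul, Ideal.mul_top, hA, SModEq.bot] at h2
      rw [h2]

end Fermat.Agent.CFT.Tangent
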