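import Fermat.Agent.CFT.Tangent.LocalBasic
import Fermat.Agent.CFT.Idele.Decomp

/-!
Finite levels and the fields cut out by joint kernels of representations and cocycles.
-/

set_option autoImplicit false
set_option linter.style.haveILetI false

noncomputable section

namespace Fermat.Agent.CFT.Tangent

open Fermat.Agent.Deform Fermat.Agent.Arith Module
open scoped Pointwise

/-- Functions on the Galois group that vanish on an open subgroup. -/
def IsFiniteLevel {M : Type} [Zero M] (b : Gal → M) : Prop :=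
  ∃ L : IntermediateField ℚ QBar, FiniteDimensional ℚ L ∧ ∀ σ : Gal, (∀ x ∈ L, σ x = x) → b σ = 0

variable {k : Type} [Field k]

/-- A common normal level for a finite dimensional space of functions and a representation. -/
theorem exists_common_level {r : Gal →* M2 k} (hr : GaloisFactorsThroughFiniteLevel r)
    (V : Submodule k (Gal → M2 k)) [Module.Finite k V] (hV : ∀ b ∈ V, IsFiniteLevel b) :
    ∃ L : IntermediateField ℚ QBar, FiniteDimensional ℚ L ∧ Normal ℚ L ∧
      ∀ σ : Gal, (∀ x ∈ L, σ x = x) → r σ = 1 ∧ ∀ b ∈ V, b σ = 0 := by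
  obtain ⟨L₀, hL₀, h₀⟩ := hr
  let e := Module.finBasis k V
  choose Lb hLb hb using fun i => hV (e i : Gal → M2 k) (e i).2
  let M : IntermediateField ℚ QBar := L₀ ⊔ ⨆ i, Lb i
  haveI : FiniteDimensional ℚ M := inferInstance
  haveI : Normal ℚ QBar := IsAlgClosure.normal ℚ QBar
  haveI : IsGalois ℚ QBar := ⟨⟩
  refine ⟨IntermediateField.normalClosure ℚ M QBar, inferInstance,
    normalClosure.normal ℚ M QBar, fun σ hσ => ?_⟩
  have hM : ∀ x ∈ M, σ x = x := fun x hx => hσ x (M.le_normalClosure hx)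
  refine ⟨h₀ σ fun x hx => hM x (le_sup_left (α := IntermediateField ℚ QBar) hx), fun b hbV => ?_⟩
  have hz : ∀ i, (e i : Gal → M2 k) σ = 0 := fun i =>
    hb i σ fun x hx => hM x (le_sup_right (α := IntermediateField ℚ QBar)
      (le_iSup (fun j => Lb j) i hx))
  have hsum := congrArg Subtype.val (e.sum_repr ⟨b, hbV⟩)
  rw [Submodule.coe_sum] at hsum
  simp only [Submodule.coe_smul] at hsum
  rw [← hsum]
  simp [Finset.sum_apply, hz]

/-- The field of a normal subgroup containing an open one. -/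
theorem exists_field_of_normal (H : Subgroup Gal) [H.Normal] (L₀ : IntermediateField ℚ QBar)
    [FiniteDimensional ℚ L₀] (hL₀ : ∀ σ : Gal, (∀ x ∈ L₀, σ x = x) → σ ∈ H) :
    ∃ K : IntermediateField ℚ QBar, FiniteDimensional ℚ K ∧ Normal ℚ K ∧
      K.fixingSubgroup = H := by
  have hle : L₀.fixingSubgroup ≤ H := fun σ hσ =>
    hL₀ σ ((IntermediateField.mem_fixingSubgroup_iff _ _).1 hσ)
  have hopen : IsOpen (H : Set Gal) :=
    Subgroup.isOpen_mono hle (IntermediateField.fixingSubgroup_isOpen L₀)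
  have hfix : (IntermediateField.fixedField H).fixingSubgroup = H :=
    InfiniteGalois.fixingSubgroup_fixedField ⟨H, Subgroup.isClosed_of_isOpen _ hopen⟩
  refine ⟨IntermediateField.fixedField H,
    (InfiniteGalois.isOpen_iff_finite _).mp (by rw [hfix]; exact hopen), ?_, hfix⟩
  haveI : IsGalois ℚ (IntermediateField.fixedField H) :=
    (InfiniteGalois.normal_iff_isGalois _).mp (by rw [hfix]; infer_instance)
  infer_instance

/-- The field cut out by the joint kernel of a representation and a space of cocycles. -/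
theorem exists_kernel_field {r : Gal →* M2 k} (hr : GaloisFactorsThroughFiniteLevel r)
    (V : Submodule k (Gal → M2 k)) [Module.Finite k V] (hcoc : ∀ b ∈ V, IsAdCocycle r b)
    (hlev : ∀ b ∈ V, IsFiniteLevel b) :
    ∃ L : IntermediateField ℚ QBar, FiniteDimensional ℚ L ∧ Normal ℚ L ∧
      ∀ σ, σ ∈ L.fixingSubgroup ↔ r σ = 1 ∧ ∀ b ∈ V, b σ = 0 := by
  have hinv : ∀ a, r a = 1 → r a⁻¹ = 1 := fun a => map_inv_eq_one
  let N : Subgroup Gal :=
    { carrier := {σ | r σ = 1 ∧ ∀ b ∈ V, b σ = 0}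
      one_mem' := ⟨map_one r, fun b hb => (hcoc b hb).one⟩
      mul_mem' := fun {a c} ha hc => ⟨by rw [map_mul, ha.1, hc.1, one_mul], fun b hb => by
        rw [hcoc b hb, hc.2 b hb, ha.2 b hb]; simp⟩
      inv_mem' := fun {a} ha => ⟨hinv a ha.1, fun b hb => by
        have h := hcoc b hb a⁻¹ a
        rw [inv_mul_cancel, (hcoc b hb).one, ha.2 b hb] at h
        simpa using h.symm⟩ }
  haveI : N.Normal := ⟨fun a ha g => by
    have h1 : r (g * a * g⁻¹) = 1 := by rw [map_mul, map_mul, ha.1, mul_one, map_mul_inv r g]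
    refine ⟨h1, fun b hb => ?_⟩
    rw [(hcoc b hb).conj g a, ha.2 b hb, h1, hinv _ h1]
    simp⟩
  obtain ⟨L₁, hL₁, -, hL₁'⟩ := exists_common_level hr V hlev
  obtain ⟨L, hLf, hLn, hLN⟩ := exists_field_of_normal N L₁ hL₁'
  exact ⟨L, hLf, hLn, fun σ => by rw [hLN]; rfl⟩

/-- A cocycle of level `L` takes equal values on elements that agree on `L`. -/
theorem IsAdCocycle.eq_of_agree {r : Gal →* M2 k} {b : Gal → M2 k} (hb : IsAdCocycle r b)
    {L : IntermediateField ℚ QBar} (hL : ∀ σ : Gal, (∀ x ∈ L, σ x = x) → b σ = 0)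
    {σ σ' : Gal} (h : ∀ x ∈ L, σ x = σ' x) : b σ = b σ' :=
  hb.congr (hL _ fun x hx => by
    rw [AlgEquiv.mul_apply, h x hx]
    exact σ'.symm_apply_apply x)

theorem map_eq_of_agree {r : Gal →* M2 k} {L : IntermediateField ℚ QBar}
    (hL : ∀ σ : Gal, (∀ x ∈ L, σ x = x) → r σ = 1) {σ σ' : Gal} (h : ∀ x ∈ L, σ x = σ' x) :
    r σ = r σ' := by
  have e := hL (σ'⁻¹ * σ) fun x hx => by
    rw [AlgEquiv.mul_apply, h x hx]; exact σ'.symm_apply_apply x
  calc r σ = r σ' * r (σ'⁻¹ * σ) := by rw [← map_mul, mul_inv_cancel_left]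
    _ = r σ' := by rw [e, mul_one]

end Fermat.Agent.CFT.Tangent
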