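import Fermat.Agent.CFT.Tangent.Dictionary
import Fermat.Prelude.Def_GaloisRep_DeformationRingData

/-!
The tangent classes of a universal deformation: cocycles, independent modulo coboundaries.
-/

set_option autoImplicit false
set_option linter.style.haveILetI false

noncomputable section

namespace Fermat.Agent.CFT.Tangent

open IsLocalRing Fermat.Agent.Deform Module

variable {𝒪 : Type} [CommRing 𝒪] [IsDomain 𝒪] [IsDiscreteValuationRing 𝒪]
  [IsAdicComplete (maximalIdeal 𝒪) 𝒪] [Finite (ResidueField 𝒪)]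
  {ρbar : ResidualGaloisRep (ResidueField 𝒪)}
  {𝒟 : ∀ ⦃A : Type⦄ [CommRing A] [IsLocalRing A] [Algebra 𝒪 A], GaloisRepAdic A → Prop}

/-- A first order deformation of the given type. -/
def IsTangentClass (𝒟 : ∀ ⦃A : Type⦄ [CommRing A] [IsLocalRing A] [Algebra 𝒪 A],
      GaloisRepAdic A → Prop)
    (r : Gal →* M2 (ResidueField 𝒪)) (b : Gal → M2 (ResidueField 𝒪)) : Prop :=
  letI := dualAlgebra 𝒪
  ∃ (ρ : GaloisRepAdic (DualNumber (ResidueField 𝒪)))
    (B : Basis (Fin 2) (DualNumber (ResidueField 𝒪)) ρ.V),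
    𝒟 ρ ∧ ∀ σ, matOf ρ B σ = (1 + epsM (b σ)) * inlM (r σ)

/-- The tangent space of a deformation ring embeds into cocycles modulo coboundaries. -/
theorem exists_tangent_classes (DQ : GaloisRep.DeformationRingData 𝒪 ρbar 𝒟)
    (bb : Basis (Fin 2) (ResidueField 𝒪) ρbar.V)
    (h𝒟 : ∀ (A : Type) [CommRing A] [IsLocalRing A] [Algebra 𝒪 A] (φ : DQ.R →ₐ[𝒪] A)
      (hφ : IsLocalHom (φ : DQ.R →+* A)), Function.Surjective φ →
        𝒟 (DQ.ρ.baseChangeAlong (φ : DQ.R →+* A) hφ)) :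
    ∃ V : Submodule (ResidueField 𝒪) (Gal → M2 (ResidueField 𝒪)),
      Module.Finite (ResidueField 𝒪) V ∧
      (∀ r : ℕ, finrank (ResidueField 𝒪) V ≤ r →
        ∃ γ : MvPowerSeries (Fin r) 𝒪 →ₐ[𝒪] DQ.R, Function.Surjective γ) ∧
      (∀ b ∈ V, (∀ g g', b (g * g') = matRes ρbar bb g * b g' * matRes ρbar bb g⁻¹ + b g) ∧
        (∃ L : IntermediateField ℚ (AlgebraicClosure ℚ), FiniteDimensional ℚ L ∧
          ∀ σ : Gal, (∀ x ∈ L, σ x = x) → b σ = 0) ∧
        (b ≠ 0 → IsTangentClass 𝒟 (matRes ρbar bb) b)) ∧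
      ∀ b ∈ V, ∀ X, b = cobdLin (matRes ρbar bb) X → b = 0 := by
  letI := dualAlgebra 𝒪
  obtain ⟨W, hW⟩ := exists_rigid ρbar DQ.absIrr bb
  let h : IsResAlg 𝒪 DQ.R := ⟨DQ.instIsLocalHom, DQ.residue_surjective⟩
  obtain ⟨B, hl⟩ := exists_lifts_basis hW h DQ.ρ DQ.residual_isEquiv
  let ru := matOf DQ.ρ B
  have hD := isLevel_dual 𝒪
  haveI : IsLocalHom (algebraMap 𝒪 (DualNumber (ResidueField 𝒪))) := hD.resAlg.isLocalHom
  haveI : Finite (DualNumber (ResidueField 𝒪)) := hD.finite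
  haveI : IsAdicComplete (maximalIdeal (DualNumber (ResidueField 𝒪)))
      (DualNumber (ResidueField 𝒪)) := isAdicComplete_of_sq_eq_bot hD.pow_eq_bot
  have hloc : ∀ δ : tangentDer h,
      IsLocalHom (tangentHom h δ : DQ.R →+* DualNumber (ResidueField 𝒪)) := fun δ => ⟨fun a ha => by
    by_contra hna
    rw [TrivSqZeroExt.isUnit_iff_isUnit_fst] at ha
    have h0 : augment h a = 0 := (augment_eq_zero_iff h a).mpr hna
    rw [show TrivSqZeroExt.fst ((tangentHom h δ : DQ.R →+* DualNumber (ResidueField 𝒪)) a) =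
      augment h a from rfl, h0] at ha
    exact not_isUnit_zero ha⟩
  have hbasis : ∀ δ : tangentDer h, ∀ σ : Gal,
      letI := (tangentHom h δ : DQ.R →+* DualNumber (ResidueField 𝒪)).toAlgebra
      matOf (DQ.ρ.baseChangeAlong _ (hloc δ)) (B.baseChange _) σ =
        (1 + epsM (tangentCls W h ru δ σ)) * inlM (W.rb σ) := fun δ σ => by
    rw [matOf_baseChangeAlong]
    exact mapM_tangentHom hl δ σ
  have hcls : ∀ δ : tangentDer h, δ ≠ 0 →
      IsTangentClass 𝒟 W.rb (tangentCls W h ru δ) := fun δ hδ =>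
    ⟨DQ.ρ.baseChangeAlong (tangentHom h δ : DQ.R →+* DualNumber (ResidueField 𝒪)) (hloc δ),
      (letI := (tangentHom h δ : DQ.R →+* DualNumber (ResidueField 𝒪)).toAlgebra;
        B.baseChange (DualNumber (ResidueField 𝒪))),
      h𝒟 _ (tangentHom h δ) (hloc δ) (tangentHom_surjective h hδ), hbasis δ⟩
  have hequiv : ∀ δ : tangentDer h,
      (DQ.ρ.baseChangeAlong _ (hloc δ)).IsEquiv (toRep
        (mapM (tangentHom h δ : DQ.R →+* DualNumber (ResidueField 𝒪)) ru)
        ((isCont_matOf DQ.ρ B).map _ (hloc δ))) :=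
    fun δ => isEquiv_baseChangeAlong_matOf _ (hloc δ) DQ.ρ B
  have hinj : ∀ (δ : tangentDer h) X, tangentCls W h ru δ = cobdLin W.rb X → δ = 0 := by
    intro δ X hX
    by_contra hδ
    let Q : (M2 (DualNumber (ResidueField 𝒪)))ˣ :=
      ⟨1 + epsM X, 1 - epsM X, dualM_ext (by simp) (by simp), dualM_ext (by simp) (by simp)⟩
    have hconj : mapM (tangentHom h (δ + δ) : DQ.R →+* DualNumber (ResidueField 𝒪)) ru =
        conjM Q (mapM (tangentHom h δ : DQ.R →+* DualNumber (ResidueField 𝒪)) ru) := by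
      refine MonoidHom.ext fun σ => ?_
      rw [conjM_apply, mapM_tangentHom hl, mapM_tangentHom hl, map_add, Pi.add_apply, hX]
      show _ = (1 - epsM X) * _ * (1 + epsM X)
      refine dualM_ext (by simp) ?_
      simp only [cobdLin, LinearMap.coe_mk, AddHom.coe_mk, sndM_mul, sndM_add, sndM_sub, sndM_one,
        fstM_mul, fstM_add, fstM_sub, fstM_one, sndM_epsM, fstM_epsM, sndM_inlM, fstM_inlM,
        add_zero, sub_zero, zero_add, mul_zero, one_mul, mul_one, zero_sub]
      have e : W.rb σ⁻¹ * W.rb σ = 1 := by rw [← map_mul, inv_mul_cancel, map_one]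
      simp only [add_mul, sub_mul, neg_mul, mul_assoc, e, mul_one]
      abel
    have hres : (DQ.ρ.baseChangeAlong _ (hloc δ)).residual.IsEquiv
        (ρbar.baseChangeAlong (ResidueField.map
          (algebraMap 𝒪 (DualNumber (ResidueField 𝒪))))) := by
      letI := (tangentHom h δ : DQ.R →+* DualNumber (ResidueField 𝒪)).toAlgebra
      refine residual_isEquiv_of_lifts hW hD.resAlg _ (B.baseChange _) ?_
      rw [matOf_baseChangeAlong]
      exact hl.map hD.resAlg (tangentHom h δ) (hloc δ)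
    have huniq := DQ.universal (DualNumber (ResidueField 𝒪)) hD.resAlg.residue_surjective
      (DQ.ρ.baseChangeAlong _ (hloc δ))
      (h𝒟 _ (tangentHom h δ) (hloc δ) (tangentHom_surjective h hδ)) hres
    have heq : tangentHom h (δ + δ) = tangentHom h δ :=
      huniq.unique
        ⟨hloc (δ + δ), isEquiv_trans (hequiv (δ + δ)) (isEquiv_trans
          (isEquiv_toRep_congr hconj _ (((isCont_matOf DQ.ρ B).map _ (hloc δ)).conj Q))
          (isEquiv_trans (isEquiv_symm (isEquiv_conj _ Q)) (isEquiv_symm (hequiv δ))))⟩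
        ⟨hloc δ, isEquiv_refl _⟩
    have h2 := tangentHom_injective h heq
    exact hδ (add_eq_left.mp h2)
  have hker : Function.Injective (tangentCls W h ru) :=
    (injective_iff_map_eq_zero _).mpr fun δ hδ => hinj δ 0 (by rw [hδ, map_zero])
  rw [← hW]
  refine ⟨LinearMap.range (tangentCls W h ru), inferInstance, fun r hr => ?_, ?_, ?_⟩
  · rw [LinearMap.finrank_range_of_inj hker] at hr
    exact exists_surjective_of_finrank_le h hr
  · rintro _ ⟨δ, rfl⟩
    refine ⟨tangentCls_mul hl δ, tangentCls_finiteLevel (isCont_matOf DQ.ρ B) δ, fun hne => ?_⟩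
    have hδ : δ ≠ 0 := fun e => hne (by rw [e, map_zero])
    exact hcls δ hδ
  · rintro _ ⟨δ, rfl⟩ X hX
    rw [hinj δ X hX, map_zero]

end Fermat.Agent.CFT.Tangent
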