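import Fermat.Agent.CFT.Tangent.PowerSeries
import Fermat.Agent.Deform.Bound

/-!
The relative tangent space of a coefficient algebra, as derivations into the residue field, and
the power series presentations it gives, with prescribed images of some of the variables.
-/

set_option autoImplicit false
set_option linter.style.haveILetI false

noncomputable section

namespace Fermat.Agent.CFT.Tangent

open IsLocalRing MvPowerSeries Fermat.Agent.Deform

variable {𝒪 : Type} [CommRing 𝒪] [IsLocalRing 𝒪]
variable {R : Type} [CommRing R] [IsLocalRing R] [Algebra 𝒪 R]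

variable (h : IsResAlg 𝒪 R)

theorem tangentHom_surjective {δ : tangentDer h} (hδ : δ ≠ 0) :
    letI := dualAlgebra 𝒪
    Function.Surjective (tangentHom h δ) := by
  letI := dualAlgebra 𝒪
  obtain ⟨a, ha⟩ : ∃ a, δ.1 a ≠ 0 := by
    by_contra! hne
    exact hδ (Subtype.ext (funext hne))
  intro z
  obtain ⟨c, hc⟩ := residue_surjective (R := 𝒪) (TrivSqZeroExt.snd z / δ.1 a)
  obtain ⟨d, hd⟩ := residue_surjective (R := 𝒪)
    (TrivSqZeroExt.fst z - residue 𝒪 c * augment h a)
  refine ⟨algebraMap 𝒪 R c * a + algebraMap 𝒪 R d, TrivSqZeroExt.ext ?_ ?_⟩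
  · rw [fst_tangentHom, map_add, map_mul, AlgHom.commutes, AlgHom.commutes,
      ResidueField.algebraMap_eq, hd]
    ring
  · rw [snd_tangentHom, δ.2.1, δ.2.2.1, δ.2.2.2, δ.2.2.2, AlgHom.commutes,
      ResidueField.algebraMap_eq, hc, mul_zero, add_zero, add_zero, div_mul_cancel₀ _ ha]

variable [IsNoetherianRing R]

instance finite_tangentDer : Module.Finite (ResidueField 𝒪) (tangentDer h) := by
  obtain ⟨t, ht⟩ := (IsNoetherian.noetherian (maximalIdeal R))
  let ev : tangentDer h →ₗ[ResidueField 𝒪] (t → ResidueField 𝒪) :=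
    { toFun := fun δ a => δ.1 a
      map_add' := fun _ _ => rfl
      map_smul' := fun _ _ => rfl }
  refine Module.Finite.of_injective ev ((injective_iff_map_eq_zero ev).mpr fun δ hδ => ?_)
  exact tangentDer_eq_zero_of_generators h ht δ fun a ha => congr_fun hδ ⟨a, ha⟩

variable [IsAdicComplete (maximalIdeal 𝒪) 𝒪] [IsAdicComplete (maximalIdeal R) R]

/-- The derivations killing the given elements. -/
def killedDer {C : Type} (x : C → R) : Submodule (ResidueField 𝒪) (tangentDer h) where
  carrier := {δ | ∀ c, δ.1 (x c) = 0}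
  add_mem' {a b} ha hb c := by simp [ha c, hb c]
  zero_mem' c := rfl
  smul_mem' k a ha c := by simp [ha c]

/-- **The presentation**: the given coordinates and `g` further ones, if the derivations killing
the given ones form a space of dimension at most `g`. -/
theorem exists_coord_surjective {C : Type} [Finite C] (x : C → R) (hx : ∀ c, x c ∈ maximalIdeal R)
    {g : ℕ} (hg : Module.finrank (ResidueField 𝒪) (killedDer h x) ≤ g) :
    ∃ γ : MvPowerSeries (C ⊕ Fin g) 𝒪 →ₐ[𝒪] R,
      Function.Surjective γ ∧ ∀ c, γ (X (Sum.inl c)) = x c := by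
  haveI := h.isLocalHom
  let k := ResidueField 𝒪
  let evl : R → Module.Dual k (killedDer h x) := fun a =>
    { toFun := fun δ => δ.1.1 a
      map_add' := fun _ _ => rfl
      map_smul' := fun _ _ => rfl }
  obtain ⟨t, htsub, htspan, htli⟩ :=
    exists_linearIndependent k (evl '' (maximalIdeal R : Set R))
  have htfin : t.Finite := htli.set_finite_of_isNoetherian
  haveI := htfin.fintype
  have hcard : Fintype.card t ≤ g := by
    refine le_trans ?_ hg
    rw [← Subspace.dual_finrank_eq (K := k) (V := killedDer h x)]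
    exact htli.fintype_card_le_finrank
  choose pre hpre hpre' using fun v : t => htsub v.2
  obtain ⟨e⟩ : Nonempty (t ↪ Fin g) :=
    Function.Embedding.nonempty_of_card_le (by rwa [Fintype.card_fin])
  let y : Fin g → R := Function.extend e pre 0
  have hy : ∀ i, y i ∈ maximalIdeal R := fun i => by
    by_cases hi : ∃ v, e v = i
    · obtain ⟨v, rfl⟩ := hi
      simp only [y, e.injective.extend_apply]
      exact hpre v
    · simp only [y, Function.extend_apply' _ _ _ hi, Pi.zero_apply]
      exact zero_mem _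
  have hs : ∀ i, Sum.elim x y i ∈ maximalIdeal R := fun i => i.casesOn hx hy
  obtain ⟨γ, hγ⟩ := exists_evalHom (𝒪 := 𝒪) (Sum.elim x y) hs
  refine ⟨γ, surjective_evalHom h.residue_surjective γ hγ hs ?_, fun c => hγ _⟩
  refine maximalIdeal_le_of_detect h (Set.range_subset_iff.mpr hs) fun δ hδ => ?_
  have hδx : δ ∈ killedDer h x := fun c => hδ _ ⟨Sum.inl c, rfl⟩
  refine tangentDer_eq_zero_of_generators h (Ideal.span_eq (maximalIdeal R)) δ fun a ha => ?_
  have h1 : evl a ∈ Submodule.span k t := htspan ▸ Submodule.subset_span ⟨a, ha, rfl⟩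
  have h2 : ∀ v ∈ Submodule.span k t, v ⟨δ, hδx⟩ = 0 := fun v hv => by
    refine Submodule.span_induction (p := fun v _ => v ⟨δ, hδx⟩ = 0) ?_ rfl ?_ ?_ hv
    · intro v hv
      have hv0 : δ.1 (pre ⟨v, hv⟩) = 0 := by
        refine hδ _ ⟨Sum.inr (e ⟨v, hv⟩), ?_⟩
        simp [y, e.injective.extend_apply]
      exact (congrFun (congrArg DFunLike.coe (hpre' ⟨v, hv⟩)) ⟨δ, hδx⟩).symm.trans hv0
    · intro u w _ _ hu hw; simp [hu, hw]
    · intro c u _ hu; simp [hu]
  exact h2 _ h1

/-- A tangent space of dimension at most `r` gives a presentation in `r` variables. -/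
theorem exists_surjective_of_finrank_le {r : ℕ}
    (hr : Module.finrank (ResidueField 𝒪) (tangentDer h) ≤ r) :
    ∃ γ : MvPowerSeries (Fin r) 𝒪 →ₐ[𝒪] R, Function.Surjective γ := by
  obtain ⟨γ, hγ, -⟩ := exists_coord_surjective h (C := Fin 0) Fin.elim0 (fun c => c.elim0) (g := r)
    ((Submodule.finrank_le _).trans hr)
  let e := MvPowerSeries.renameEquiv 𝒪 (Equiv.emptySum (Fin 0) (Fin r)).symm
  exact ⟨γ.comp e.toAlgHom, hγ.comp e.surjective⟩

end Fermat.Agent.CFT.Tangent
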