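import Fermat.Agent.CFT.Tangent.Dictionary

/-!
Cocycles of the untwisted adjoint representation and the shape of the local bounds.
-/

set_option autoImplicit false
set_option linter.style.haveILetI false

noncomputable section

namespace Fermat.Agent.CFT.Tangent

open Fermat.Agent.Deform Module

variable {k : Type} [Field k] {G : Type} [Group G] (r : G →* M2 k)

/-- Cocycles for conjugation by `r`. -/
def IsAdCocycle (b : G → M2 k) : Prop :=
  ∀ g g', b (g * g') = r g * b g' * r g⁻¹ + b g

theorem cobdLin_apply (X : M2 k) (g : G) : cobdLin r X g = r g * X * r g⁻¹ - X := rfl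

theorem map_mul_inv (g : G) : r g * r g⁻¹ = 1 := by rw [← map_mul, mul_inv_cancel, map_one]

theorem map_inv_mul (g : G) : r g⁻¹ * r g = 1 := by rw [← map_mul, inv_mul_cancel, map_one]

theorem det_map_ne_zero (g : G) : (r g).det ≠ 0 :=
  (((Group.isUnit g).map r).map Matrix.detMonoidHom).ne_zero

theorem trace_conj_map (g : G) (X : M2 k) : (r g * X * r g⁻¹).trace = X.trace := by
  rw [Matrix.trace_mul_comm, ← mul_assoc, map_inv_mul, one_mul]

theorem trace_cobdLin (X : M2 k) (g : G) : (cobdLin r X g).trace = 0 := by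
  rw [cobdLin_apply, Matrix.trace_sub, trace_conj_map, sub_self]

variable {r} in
theorem map_inv_eq_one {g : G} (h : r g = 1) : r g⁻¹ = 1 := by
  have e := map_inv_mul r g; rwa [h, mul_one] at e

variable {r} in
theorem cobdLin_eq_zero {g : G} (h : r g = 1) (X : M2 k) : cobdLin r X g = 0 := by
  rw [cobdLin_apply, h, map_inv_eq_one h, one_mul, mul_one, sub_self]

theorem trace_sub_half (h2 : (2 : k) ≠ 0) (X : M2 k) : (X - (X.trace / 2) • 1).trace = 0 := by
  rw [Matrix.trace_sub, Matrix.trace_smul, Matrix.trace_one, Fintype.card_fin, smul_eq_mul]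
  push_cast
  field_simp
  ring

theorem isAdCocycle_cobdLin (X : M2 k) : IsAdCocycle r (cobdLin r X) := fun g g' => by
  simp only [cobdLin_apply, map_mul, mul_inv_rev, mul_sub, sub_mul, mul_assoc]
  abel

/-- Coboundaries on a subgroup. -/
def cobdOn (D : Subgroup G) : Submodule k (G → M2 k) where
  carrier := {b | ∃ X : M2 k, X.trace = 0 ∧ ∀ s ∈ D, b s = r s * X * r s⁻¹ - X}
  add_mem' := by
    rintro a b ⟨X, hX, ha⟩ ⟨Y, hY, hb⟩
    refine ⟨X + Y, by rw [Matrix.trace_add, hX, hY, add_zero], fun s hs => ?_⟩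
    rw [Pi.add_apply, ha s hs, hb s hs, mul_add, add_mul]; abel
  zero_mem' := ⟨0, by simp, fun s _ => by simp⟩
  smul_mem' := by
    rintro c b ⟨X, hX, hb⟩
    refine ⟨c • X, by rw [Matrix.trace_smul, hX, smul_zero], fun s hs => ?_⟩
    rw [Pi.smul_apply, hb s hs, mul_smul_comm, smul_mul_assoc, smul_sub]

/-- Trace zero matrices fixed by a subgroup. -/
def fixedOn (D : Subgroup G) : Submodule k (M2 k) where
  carrier := {X | X.trace = 0 ∧ ∀ s ∈ D, r s * X * r s⁻¹ = X}
  add_mem' := by
    rintro X Y ⟨hX, hX'⟩ ⟨hY, hY'⟩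
    exact ⟨by rw [Matrix.trace_add, hX, hY, add_zero],
      fun s hs => by rw [mul_add, add_mul, hX' s hs, hY' s hs]⟩
  zero_mem' := ⟨by simp, fun s _ => by simp⟩
  smul_mem' := by
    rintro c X ⟨hX, hX'⟩
    exact ⟨by rw [Matrix.trace_smul, hX, smul_zero],
      fun s hs => by rw [mul_smul_comm, smul_mul_assoc, hX' s hs]⟩

variable {r}

theorem cobdLin_mem_cobdOn (h2 : (2 : k) ≠ 0) (D : Subgroup G) (X : M2 k) :
    cobdLin r X ∈ cobdOn r D := by
  refine ⟨X - (X.trace / 2) • 1, trace_sub_half h2 X, fun s _ => ?_⟩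
  rw [cobdLin_apply, mul_sub, sub_mul, mul_smul_comm, mul_one, smul_mul_assoc, map_mul_inv]
  abel

namespace IsAdCocycle

variable {b b' : G → M2 k}

theorem one (hb : IsAdCocycle r b) : b 1 = 0 := by
  simpa using hb 1 1

theorem add (hb : IsAdCocycle r b) (hb' : IsAdCocycle r b') : IsAdCocycle r (b + b') :=
  fun g g' => by
    simp only [Pi.add_apply, hb g g', hb' g g', mul_add, add_mul]; abel

theorem sub (hb : IsAdCocycle r b) (hb' : IsAdCocycle r b') : IsAdCocycle r (b - b') :=
  fun g g' => by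
    simp only [Pi.sub_apply, hb g g', hb' g g', mul_sub, sub_mul]; abel

theorem pow_eq_zero (hb : IsAdCocycle r b) {g : G} (hg : b g = 0) (n : ℕ) : b (g ^ n) = 0 := by
  induction n with
  | zero => simpa using hb.one
  | succ n ih => rw [pow_succ, hb, hg, ih]; simp

theorem pow_of_eq_one (hb : IsAdCocycle r b) {g : G} (hg : r g = 1) (n : ℕ) :
    b (g ^ n) = (n : k) • b g := by
  have hg' : r g⁻¹ = 1 := by
    have := map_mul r g⁻¹ g
    rwa [inv_mul_cancel, map_one, hg, mul_one, eq_comm] at this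
  induction n with
  | zero => simpa using hb.one
  | succ n ih => rw [pow_succ', hb, hg, hg', one_mul, mul_one, ih, Nat.cast_succ, add_smul, one_smul]

theorem congr (hb : IsAdCocycle r b) {g g' : G} (h : b (g'⁻¹ * g) = 0) : b g = b g' := by
  conv_lhs => rw [← mul_inv_cancel_left g' g, hb, h]
  simp

theorem conj (hb : IsAdCocycle r b) (s t : G) :
    b (s * t * s⁻¹) = r s * b t * r s⁻¹ + b s - r (s * t * s⁻¹) * b s * r (s * t * s⁻¹)⁻¹ := by
  rw [eq_sub_iff_add_eq, ← hb s t, add_comm]
  have h := hb (s * t * s⁻¹) s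
  rw [inv_mul_cancel_right] at h
  rw [h]

end IsAdCocycle

theorem finrank_comap_subtype {M : Type} [AddCommGroup M] [Module k M] (V K : Submodule k M) :
    finrank k (K.comap V.subtype) = finrank k (V ⊓ K : Submodule k M) :=
  ((Submodule.equivSubtypeMap V _).trans
    (LinearEquiv.ofEq _ _ (Submodule.map_comap_subtype V K))).finrank_eq

/-- Bounding a space of functions modulo `K` by the rank of a linear map. -/
theorem finrank_le_inf_add {M W : Type} [AddCommGroup M] [Module k M] [AddCommGroup W]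
    [Module k W] [Module.Finite k W] {V V₀ K : Submodule k M} [Module.Finite k V]
    (hV : V ≤ V₀ ⊔ K) (Λ : V₀ →ₗ[k] W) (hΛ : ∀ b : V₀, Λ b = 0 → (b : M) ∈ K) :
    finrank k V ≤ finrank k (V ⊓ K : Submodule k M) + finrank k W := by
  set π : M →ₗ[k] M ⧸ K := K.mkQ
  have hker : LinearMap.ker Λ ≤ LinearMap.ker (π.comp V₀.subtype) := fun b hb => by
    show π (b : M) = 0
    exact (Submodule.Quotient.mk_eq_zero _).mpr (hΛ b hb)
  set f : (V₀ ⧸ LinearMap.ker Λ) →ₗ[k] M ⧸ K := Submodule.liftQ _ (π.comp V₀.subtype) hker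
  haveI : Module.Finite k (V₀ ⧸ LinearMap.ker Λ) := Module.Finite.equiv Λ.quotKerEquivRange.symm
  have h1 : finrank k (LinearMap.range f) ≤ finrank k W :=
    (LinearMap.finrank_range_le f).trans
      (Λ.quotKerEquivRange.finrank_eq.trans_le (Submodule.finrank_le _))
  have h2 : LinearMap.range (π.comp V.subtype) ≤ LinearMap.range f := by
    rintro _ ⟨⟨v, hv⟩, rfl⟩
    obtain ⟨a, ha, c, hc, rfl⟩ := Submodule.mem_sup.mp (hV hv)
    refine ⟨Submodule.Quotient.mk ⟨a, ha⟩, ?_⟩
    show π a = π (a + c)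
    rw [map_add, show π c = 0 from (Submodule.Quotient.mk_eq_zero _).mpr hc, add_zero]
  have h3 := LinearMap.finrank_range_add_finrank_ker (π.comp V.subtype)
  have h4 : finrank k (LinearMap.ker (π.comp V.subtype)) =
      finrank k (V ⊓ K : Submodule k M) := by
    rw [LinearMap.ker_comp, show LinearMap.ker π = K from K.ker_mkQ, finrank_comap_subtype]
  have h5 := Submodule.finrank_mono h2
  omega

end Fermat.Agent.CFT.Tangent
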