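import Fermat.Agent.CFT.Tangent.LocalPlace
import Fermat.Agent.CFT.Local.PowIndex
import Fermat.Agent.Mazur.Eisenstein.CycInertia

/-!
Cocycles of a decomposition group at `p` with values in the cyclotomic character: at most two
classes.
-/

set_option autoImplicit false
set_option linter.style.haveILetI false

noncomputable section

namespace Fermat.Agent.CFT.Tangent

open Fermat.Agent.Deform Fermat.Agent.Arith Module
open scoped Pointwise

variable {p : ℕ} [Fact p.Prime] {k : Type} [Field k] [Finite k] [CharP k p]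

/-- Scalar coboundaries of a character on a decomposition group. -/
def scalarCobdOn (a : Gal → k) (D : Subgroup Gal) : Submodule k (Gal → k) where
  carrier := {β | ∃ c : k, ∀ s ∈ D, β s = (a s - 1) * c}
  add_mem' := by
    rintro β γ ⟨c, hc⟩ ⟨c', hc'⟩
    exact ⟨c + c', fun s hs => by rw [Pi.add_apply, hc s hs, hc' s hs]; ring⟩
  zero_mem' := ⟨0, fun s _ => by simp⟩
  smul_mem' := by
    rintro x β ⟨c, hc⟩
    exact ⟨x * c, fun s hs => by rw [Pi.smul_apply, hc s hs, smul_eq_mul]; ring⟩

section Embed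

variable (L : IntermediateField ℚ QBar)

/-- `ℚ_p`, inside the completion. -/
def qpIncl : (⊥ : IntermediateField ℚ_[p] (PadicAlgCl p))ˣ →* (Local.localField p L)ˣ :=
  Units.map (IntermediateField.inclusion
    (bot_le : (⊥ : IntermediateField ℚ_[p] (PadicAlgCl p)) ≤ Local.localField p L)).toMonoidHom

theorem algEquiv_qpIncl (g : Local.localField p L ≃ₐ[ℚ_[p]] Local.localField p L)
    (u : (⊥ : IntermediateField ℚ_[p] (PadicAlgCl p))ˣ) :
    g • qpIncl L u = qpIncl L u := by
  obtain ⟨a, ha⟩ := IntermediateField.mem_bot.mp (u : (⊥ : IntermediateField ℚ_[p] (PadicAlgCl p))).2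
  have h : ((qpIncl L u : (Local.localField p L)ˣ) : Local.localField p L) =
      algebraMap ℚ_[p] (Local.localField p L) a := Subtype.ext ha.symm
  refine Units.ext ?_
  show g (qpIncl L u : Local.localField p L) = qpIncl L u
  rw [h, AlgEquiv.commutes]

theorem exists_qpIncl_eq [Normal ℚ L] [FiniteDimensional ℚ L] (x : (Local.localField p L)ˣ)
    (hx : ∀ g : Local.localField p L ≃ₐ[ℚ_[p]] Local.localField p L, g • x = x) :
    ∃ u, qpIncl L u = x := by
  haveI : IsGalois ℚ_[p] (Local.localField p L) := ⟨⟩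
  obtain ⟨a, ha⟩ := (IsGalois.mem_range_algebraMap_iff_fixed (F := ℚ_[p])
    (x : Local.localField p L)).mpr fun g => congrArg Units.val (hx g)
  have ha0 : algebraMap ℚ_[p] (⊥ : IntermediateField ℚ_[p] (PadicAlgCl p)) a ≠ 0 := by
    intro h0
    rw [map_eq_zero] at h0
    exact x.ne_zero (by rw [← ha, h0, map_zero])
  exact ⟨Units.mk0 _ ha0, Units.ext (Subtype.ext (congrArg Subtype.val ha))⟩

end Embed

/-- At most two classes, when the level contains the roots of unity. -/
theorem finrank_kummer_le_of_mem (hp2 : p ≠ 2) (a : Gal → k)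
    (ha : ∀ (σ : Gal) (n : ℕ), (∀ μ : QBar, μ ^ p = 1 → σ μ = μ ^ n) → a σ = (n : k))
    (Z : Submodule k (Gal → k)) [Module.Finite k Z]
    (hZ : ∀ β ∈ Z, ∀ s ∈ (padicPlace p).decompositionSubgroup ℚ,
      ∀ t ∈ (padicPlace p).decompositionSubgroup ℚ, β (s * t) = a s * β t + β s)
    (L : IntermediateField ℚ QBar) [Normal ℚ L] [FiniteDimensional ℚ L] {ζ : QBar}
    (hζ : IsPrimitiveRoot ζ p) (hζL : ζ ∈ L)
    (hlev : ∀ β ∈ Z, ∀ σ : Gal, (∀ x ∈ L, σ x = x) → β σ = 0) :
    finrank k Z ≤ finrank k (Z ⊓ scalarCobdOn a ((padicPlace p).decompositionSubgroup ℚ) :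
      Submodule k (Gal → k)) + 2 := by
  classical
  have hp : p.Prime := Fact.out
  haveI : NeZero p := ⟨hp.ne_zero⟩
  set D := (padicPlace p).decompositionSubgroup ℚ with hDdef
  set E := Local.localField p L with hE
  set Γ := E ≃ₐ[ℚ_[p]] E
  have hpow : ∀ σ : Gal, ∃ n : ℕ, ∀ μ : QBar, μ ^ p = 1 → σ μ = μ ^ n := fun σ => by
    exact exists_pow_eq_on_roots p σ
  choose e he using hpow
  have hlift : ∀ g : Γ, ∃ s ∈ D, AlgEquiv.restrictNormalHom L s = Local.toGlobal p L g :=
    fun g => ⟨localGaloisToGlobal p (g.liftNormal (PadicAlgCl p)),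
      localGaloisToGlobal_mem_decompositionSubgroup p _, rfl⟩
  choose lift hlD hlr using hlift
  have hcomm : ∀ (s : Gal) (x : L), ((AlgEquiv.restrictNormalHom L s x : L) : QBar) = s (x : QBar) :=
    fun s x => AlgEquiv.restrictNormal_commutes s L x
  have hagree : ∀ {s s' : Gal}, AlgEquiv.restrictNormalHom L s = AlgEquiv.restrictNormalHom L s' →
      s ∈ D → s' ∈ D → ∀ β ∈ Z, β s = β s' := by
    intro s s' h hs hs' β hβ
    have h0 : ∀ x ∈ L, (s'⁻¹ * s) x = x := fun x hx => by
      rw [AlgEquiv.mul_apply, show s x = s (((⟨x, hx⟩ : L) : QBar)) from rfl, ← hcomm, h, hcomm]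
      exact s'.symm_apply_apply x
    calc β s = β (s' * (s'⁻¹ * s)) := by rw [mul_inv_cancel_left]
      _ = β s' := by
        rw [hZ β hβ s' hs' _ (mul_mem (inv_mem hs') hs), hlev β hβ _ h0, mul_zero, zero_add]
  -- the root of unity upstairs
  let ζE : E := Local.localEmb p L ⟨ζ, hζL⟩
  have hζE : IsPrimitiveRoot ζE p :=
    IsPrimitiveRoot.map_of_injective (f := Local.localEmb p L)
      (IsPrimitiveRoot.coe_submonoidClass_iff.mp hζ) (Local.localEmb p L).injective
  let ζu : Eˣ := hζE.toRootsOfUnity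
  have hζu : (ζu : E) = ζE := rfl
  have hζup : ζu ^ p = 1 := Units.ext hζE.pow_eq_one
  have hζmod : ∀ {m n : ℕ}, (m : ZMod p) = (n : ZMod p) → ζu ^ m = ζu ^ n := fun h => by
    rw [ZMod.natCast_eq_natCast_iff'] at h
    rw [pow_eq_pow_mod _ hζup, h, ← pow_eq_pow_mod _ hζup]
  have hact : ∀ g : Γ, g • ζu = ζu ^ e (lift g) := fun g => by
    refine Units.ext ?_
    show g ζE = ((ζu ^ e (lift g) : Eˣ) : E)
    rw [Units.val_pow_eq_pow_val, hζu, ← Local.localEmb_toGlobal, ← hlr, ← map_pow]
    congr 1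
    exact Subtype.ext ((AlgEquiv.restrictNormal_commutes (lift g) L ⟨ζ, hζL⟩).trans
      (he _ ζ hζ.pow_eq_one))
  -- coordinates over the prime field
  letI : Algebra (ZMod p) k := ZMod.algebra k p
  haveI : Module.Finite (ZMod p) k := Module.Finite.of_finite
  let bk := Module.finBasis (ZMod p) k
  set d := finrank (ZMod p) k
  have hcoord : ∀ (n : ℕ) (x : k) (i : Fin d),
      bk.repr ((n : k) * x) i = (n : ZMod p) * bk.repr x i := fun n x i => by
    rw [← map_natCast (algebraMap (ZMod p) k) n, ← Algebra.smul_def, map_smul]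
    rfl
  -- Hilbert 90
  have hH90 : ∀ (β : Z) (i : Fin d), ∃ y : Eˣ,
      ∀ g : Γ, g • y / y = ζu ^ (bk.repr ((β : Gal → k) (lift g)) i).val := by
    intro β i
    refine groupCohomology.isMulCoboundary₁_of_isMulCocycle₁_of_aut_to_units _ fun g g' => ?_
    rw [smul_pow', hact, ← pow_mul, ← pow_add]
    refine hζmod ?_
    rw [Nat.cast_add, Nat.cast_mul, ZMod.natCast_zmod_val, ZMod.natCast_zmod_val,
      ZMod.natCast_zmod_val]
    have h1 : (β : Gal → k) (lift (g * g')) = (β : Gal → k) (lift g * lift g') :=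
      hagree (by rw [hlr, map_mul, map_mul, hlr, hlr]) (hlD _) (mul_mem (hlD g) (hlD g')) _ β.2
    rw [h1, hZ _ β.2 _ (hlD g) _ (hlD g'), ha _ _ (he (lift g)), map_add, Finsupp.add_apply, hcoord]
  choose y hy using hH90
  have hfix : ∀ (β : Z) (i : Fin d), ∃ u, qpIncl L u = y β i ^ p := fun β i =>
    exists_qpIncl_eq L _ fun g => by
      rw [← div_eq_one, smul_pow', ← div_pow, hy, ← pow_mul, mul_comm, pow_mul, hζup, one_pow]
  choose u hu using hfix
  let Qt := (⊥ : IntermediateField ℚ_[p] (PadicAlgCl p))ˣ ⧸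
    (powMonoidHom p : (⊥ : IntermediateField ℚ_[p] (PadicAlgCl p))ˣ →* _).range
  let Θ : Z → (Fin d → Qt) := fun β i => QuotientGroup.mk (u β i)
  -- equal Kummer elements give cohomologous cocycles
  have hkey : ∀ β β' : Z, Θ β = Θ β' → ((β : Gal → k) - (β' : Gal → k)) ∈ scalarCobdOn a D := by
    intro β β' h
    have hc : ∀ i, ∃ c : ℕ, y β i = y β' i * ζu ^ c * qpIncl L ((QuotientGroup.eq.mp (congrFun h i) |>
        MonoidHom.mem_range.mp).choose)⁻¹ := by
      intro i
      set w := (QuotientGroup.eq.mp (congrFun h i) |> MonoidHom.mem_range.mp).choose with hw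
      have hwp : w ^ p = (u β i)⁻¹ * u β' i :=
        (QuotientGroup.eq.mp (congrFun h i) |> MonoidHom.mem_range.mp).choose_spec
      have h1 : (y β i * qpIncl L w / y β' i) ^ p = 1 := by
        rw [div_pow, mul_pow, ← map_pow, hwp, map_mul, map_inv, hu, hu, mul_inv_cancel_left, div_self']
      obtain ⟨c, -, hc⟩ := hζE.eq_pow_of_pow_eq_one
        (ξ := ((y β i * qpIncl L w / y β' i : Eˣ) : E))
        (by rw [← Units.val_pow_eq_pow_val, h1, Units.val_one])
      refine ⟨c, ?_⟩
      have hc' : ζu ^ c = y β i * qpIncl L w / y β' i := Units.ext (by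
        rw [Units.val_pow_eq_pow_val, hζu, hc])
      rw [hc', map_inv, mul_div_cancel, mul_inv_cancel_right]
    choose c hc using hc
    refine ⟨∑ i, (c i : ZMod p) • bk i, fun s hs => ?_⟩
    obtain ⟨g, hg⟩ := (Local.mem_range_toGlobal_iff p L (AlgEquiv.restrictNormalHom L s)).mpr
      fun x hx => by
        rw [show ((AlgEquiv.restrictNormalHom L s x : L) : QBar) = s (x : QBar) from
          AlgEquiv.restrictNormal_commutes s L x]
        exact map_mem_of_mem_decomposition hs hx
    have hsg : AlgEquiv.restrictNormalHom L s = AlgEquiv.restrictNormalHom L (lift g) := by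
      rw [hlr, hg]
    have hae : a s = (e (lift g) : k) := by
      refine ha s _ fun μ hμ => ?_
      obtain ⟨j, -, rfl⟩ := hζ.eq_pow_of_pow_eq_one hμ
      rw [map_pow]
      have : s ζ = lift g ζ := by
        rw [show s ζ = s (((⟨ζ, hζL⟩ : L) : QBar)) from rfl, ← hcomm, hsg, hcomm]
      rw [this, he _ ζ hζ.pow_eq_one, ← pow_mul, ← pow_mul, mul_comm]
    rw [hagree hsg hs (hlD g) _ (sub_mem β.2 β'.2), hae, Pi.sub_apply]
    apply bk.repr.injective
    ext i
    rw [map_sub, Finsupp.sub_apply, sub_mul, one_mul, map_sub, Finsupp.sub_apply, hcoord,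
      map_sum, Finsupp.finsetSum_apply]
    simp only [map_smul, Finsupp.smul_apply, Basis.repr_self, Finsupp.single_apply, smul_eq_mul,
      mul_ite, mul_one, mul_zero, Finset.sum_ite_eq', Finset.mem_univ, if_true]
    -- compare exponents
    have h1 := hy β i g
    rw [hc i, smul_mul', smul_mul', algEquiv_qpIncl, mul_div_mul_right_eq_div, smul_pow', hact,
      ← pow_mul, mul_div_mul_comm, hy β' i g, div_eq_mul_inv (ζu ^ _) (ζu ^ c i)] at h1
    rw [← mul_assoc, mul_inv_eq_iff_eq_mul, ← pow_add, ← pow_add] at h1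
    have h2 := congrArg (fun n : ℕ => (n : ZMod p))
      (hζE.pow_inj (Nat.mod_lt _ hp.pos) (Nat.mod_lt _ hp.pos)
        (congrArg Units.val
          ((pow_eq_pow_mod _ hζup).symm.trans (h1.trans (pow_eq_pow_mod _ hζup)))))
    simp only [Nat.cast_add, Nat.cast_mul, ZMod.natCast_mod, ZMod.natCast_zmod_val] at h2
    linear_combination -h2
  -- counting
  let B : Submodule k Z := (scalarCobdOn a D).comap Z.subtype
  haveI : Finite Z := Module.finite_of_finite k
  have hindex : (powMonoidHom p : (⊥ : IntermediateField ℚ_[p] (PadicAlgCl p))ˣ →* _).range.index =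
      p ^ 2 := by
    rw [Local.index_range_pow hp2, Local.card_ker_pow_of_forall, if_pos rfl,
      IntermediateField.finrank_bot]
    · ring
    · intro ξ hξ
      by_contra hne
      obtain ⟨σ, hσI, hσ⟩ := Mazur.Eisenstein.exists_inertia_inv
        (Local.padicPlace_liesOverPrime p) hp 1
      obtain ⟨s, hs, hsg⟩ := Local.exists_mem_inertia_of_inertia p L hσI
      obtain ⟨b, hb⟩ := IntermediateField.mem_bot.mp ξ.2
      have hξE : (algebraMap ℚ_[p] E b) ^ p = 1 := Subtype.ext (by
        show (algebraMap ℚ_[p] (PadicAlgCl p) b) ^ p = 1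
        rw [hb]; exact congrArg Subtype.val hξ)
      obtain ⟨j, hj, hjb⟩ := hζE.eq_pow_of_pow_eq_one hξE
      have h1 : s (ζE ^ j) = ζE ^ j := by rw [hjb, AlgEquiv.commutes]
      have h2 : s ζE = ζE⁻¹ := by
        rw [← Local.localEmb_toGlobal, hsg, ← map_inv₀]
        congr 1
        refine Subtype.ext ((hcomm σ ⟨ζ, hζL⟩).trans ?_)
        show σ ζ = ((⟨ζ, hζL⟩⁻¹ : L) : QBar)
        rw [hσ ζ (by rw [pow_one, hζ.pow_eq_one])]
        rfl
      rw [map_pow, h2, inv_pow] at h1
      have h3 : ζE ^ (j + j) = 1 := by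
        rw [pow_add]; nth_rewrite 1 [← h1]
        exact inv_mul_cancel₀ (pow_ne_zero _ (hζE.ne_zero hp.ne_zero))
      have h4 : p ∣ j + j := (hζE.pow_eq_one_iff_dvd _).mp h3
      rw [← two_mul] at h4
      rcases hp.dvd_mul.mp h4 with h | h
      · exact hp2 ((Nat.prime_dvd_prime_iff_eq hp Nat.prime_two).mp h)
      · rw [Nat.eq_zero_of_dvd_of_lt h hj, pow_zero] at hjb
        refine hne (Subtype.ext ?_)
        rw [← hb]
        exact congrArg Subtype.val hjb.symm
  haveI : Finite Qt := Nat.finite_of_card_ne_zero (by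
    show (powMonoidHom p : (⊥ : IntermediateField ℚ_[p] (PadicAlgCl p))ˣ →* _).range.index ≠ 0
    rw [hindex]; exact pow_ne_zero _ hp.ne_zero)
  have hinj : Function.Injective fun x : Z ⧸ B => Θ (Quotient.out x) := fun x x' h => by
    rw [← Quotient.out_eq x, ← Quotient.out_eq x']
    exact (Submodule.Quotient.eq B).mpr (hkey _ _ h)
  have hcard := Nat.card_le_card_of_injective _ hinj
  rw [Nat.card_fun, Nat.card_fin, show Nat.card Qt = p ^ 2 from hindex, ← pow_mul,
    Module.natCard_eq_pow_finrank (K := k) (V := Z ⧸ B),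
    Module.natCard_eq_pow_finrank (K := ZMod p) (V := k), Nat.card_zmod, ← pow_mul] at hcard
  have hd : 0 < d := Module.finrank_pos
  have h5 : finrank k (Z ⧸ B) ≤ 2 := by
    have := (Nat.pow_le_pow_iff_right hp.one_lt).mp hcard
    exact Nat.le_of_mul_le_mul_left (by linarith) hd
  have h6 := B.finrank_quotient_add_finrank
  have h7 : finrank k B = _ := finrank_comap_subtype Z (scalarCobdOn a D)
  omega

end Fermat.Agent.CFT.Tangent
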