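import Fermat.Agent.CFT.Tangent.LocalOrdinary

/-!
Strictly ordinary tangent classes satisfy the local bound at `p`.
-/

set_option autoImplicit false
set_option linter.style.haveILetI false

noncomputable section

namespace Fermat.Agent.CFT.Tangent

open Fermat.Agent.Deform Fermat.Agent.Arith Module
open scoped Pointwise

variable {p : ℕ} [Fact p.Prime] {k : Type} [Field k] [Finite k] [CharP k p] {r : Gal →* M2 k}

/-- The frame attached to a strictly ordinary first order deformation. -/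
structure OrdFrame (p : ℕ) [Fact p.Prime] (r : Gal →* M2 k) (b : Gal → M2 k) where
  /-- The frame. -/
  Z : M2 k
  /-- Its inverse. -/
  Zi : M2 k
  /-- The normalising matrix. -/
  X : M2 k
  mul_inv : Z * Zi = 1
  inv_mul : Zi * Z = 1
  upper : ∀ s ∈ (padicPlace p).decompositionSubgroup ℚ, ∃ x z c : k,
    r s * Z = Z * !![x, c; 0, z] ∧ x = (r s).det * z ∧ z * z = 1 ∧
      Matrix.single (0 : Fin 2) (1 : Fin 2) (1 : k) * Zi * r s⁻¹ = z • (Matrix.single 0 1 1 * Zi)
  inertia : ∀ s ∈ (padicPlace p).inertiaSubgroupIn ℚ, ∃ x c : k,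
    r s * Z = Z * !![x, c; 0, 1] ∧ x = (r s).det
  line : ∀ s ∈ (padicPlace p).decompositionSubgroup ℚ, ∃ c : k,
    b s - cobdLin r X s = c • (Z * Matrix.single 0 1 1 * Zi)

omit [Finite k] in
theorem single_mul_upper (x z c : k) :
    Matrix.single (0 : Fin 2) (1 : Fin 2) (1 : k) * !![x, c; 0, z] =
      z • Matrix.single (0 : Fin 2) (1 : Fin 2) (1 : k) := by
  ext i j
  fin_cases i <;> fin_cases j <;> simp [Matrix.mul_apply, Matrix.single]

omit [Finite k] [CharP k p] [Fact p.Prime] in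
theorem upper_mul_inv_eq {s : Gal} {Z Zi U : M2 k} (hZ : Z * Zi = 1) (hZ' : Zi * Z = 1)
    (h : r s * Z = Z * U) : U * (Zi * r s⁻¹) = Zi :=
  calc U * (Zi * r s⁻¹) = Zi * (Z * U) * (Zi * r s⁻¹) := by rw [← mul_assoc Zi Z, hZ', one_mul]
    _ = Zi * (r s * (Z * Zi) * r s⁻¹) := by rw [← h]; simp only [mul_assoc]
    _ = Zi := by rw [hZ, mul_one, map_mul_inv, mul_one]

omit [Finite k] in
/-- The frame of a strictly ordinary deformation with cyclotomic determinant. -/
theorem nonempty_ordFrame {b : Gal → M2 k}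
    (hcyc : ∀ (σ : Gal) (n : ℕ), (∀ μ : QBar, μ ^ p = 1 → σ μ = μ ^ n) → (r σ).det = (n : k))
    (h2 : (2 : k) ≠ 0) {ρ : GaloisRepAdic (DualNumber k)}
    {B : Basis (Fin 2) (DualNumber k) ρ.V} (hord : ρ.IsStrictOrdinaryAt p)
    (hdet : ρ.DetIsCyclotomic p)
    (hB : ∀ σ, matOf ρ B σ = (1 + epsM (b σ)) * inlM (r σ)) :
    Nonempty (OrdFrame p r b) := by
  haveI : NeZero p := ⟨(Fact.out : p.Prime).ne_zero⟩
  have hA := Local.padicPlace_liesOverPrime p
  obtain ⟨L, ⟨e, he⟩, hD, hI, hxz⟩ := hord.2 (padicPlace p) hA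
  have hp0 : ((p ^ 1 : ℕ) : DualNumber k) = 0 := by
    rw [pow_one, ← map_natCast (algebraMap k (DualNumber k)) p, CharP.cast_eq_zero, map_zero]
  let Q : M2 (DualNumber k) := B.toMatrix e
  let Qi : M2 (DualNumber k) := e.toMatrix B
  have hQ : Q * Qi = 1 := B.toMatrix_mul_toMatrix_flip e
  have hQ' : Qi * Q = 1 := e.toMatrix_mul_toMatrix_flip B
  have hchange : ∀ σ, matOf ρ B σ * Q = Q * matOf ρ e σ := fun σ =>
    (linearMap_toMatrix_mul_basis_toMatrix e B B (ρ.ρ σ)).trans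
      (basis_toMatrix_mul_linearMap_toMatrix e B e (ρ.ρ σ)).symm
  have he0 : e 0 ∈ L := he ▸ Submodule.mem_span_singleton_self _
  have hL1 : ∀ v ∈ L, e.repr v 1 = 0 := fun v hv => by
    rw [he] at hv
    obtain ⟨c, rfl⟩ := Submodule.mem_span_singleton.mp hv
    simp
  have hZ : fstM Q * fstM Qi = 1 := by rw [← fstM_mul, hQ, fstM_one]
  have hZ' : fstM Qi * fstM Q = 1 := by rw [← fstM_mul, hQ', fstM_one]
  set Z := fstM Q
  set Zi := fstM Qi
  have key : ∀ s ∈ (padicPlace p).decompositionSubgroup ℚ, ∃ (x z : k) (u : DualNumber k),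
      matOf ρ e s = !![TrivSqZeroExt.inl x, u; 0, TrivSqZeroExt.inl z] ∧
        x = (r s).det * z ∧ z * z = 1 ∧
        (s ∈ (padicPlace p).inertiaSubgroupIn ℚ → z = 1) := by
    intro s hs
    obtain ⟨x, z, hx, hz, hcong⟩ := hxz s hs
    obtain ⟨n, hn⟩ := exists_pow_eq_on_roots p s
    have hn' : ∀ μ : QBar, μ ^ p ^ 1 = 1 → s μ = μ ^ n := by simpa using hn
    have hxn := hcong 1 n hn'
    rw [hp0, Ideal.span_singleton_eq_bot.mpr rfl, Ideal.mem_bot, sub_eq_zero] at hxn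
    have hd := hdet.2 1 s n hn'
    rw [hp0, Ideal.span_singleton_eq_bot.mpr rfl, Ideal.mem_bot, sub_eq_zero] at hd
    have hU : matOf ρ e s = !![x, e.repr (ρ.ρ s (e 1)) 0; 0, z] := by
      ext i j : 1
      fin_cases j
      · fin_cases i <;> simp [matOf_apply, hx _ he0]
      · fin_cases i
        · simp [matOf_apply]
        · have h := hL1 _ (hz (e 1))
          simp only [map_sub, map_smul, Finsupp.sub_apply, Finsupp.smul_apply, Basis.repr_self,
            Finsupp.single_eq_same, smul_eq_mul, mul_one, sub_eq_zero] at h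
          simpa [matOf_apply] using h
    have hd' : (matOf ρ e s).det = (n : DualNumber k) := by
      rw [← hd, ← LinearMap.det_toMatrix e]; rfl
    rw [hU, Matrix.det_fin_two_of, mul_zero, sub_zero, hxn] at hd'
    have hn0 : (n : k) ≠ 0 := by rw [← hcyc s n hn]; exact det_map_ne_zero r s
    have h0 := congrArg TrivSqZeroExt.fst hd'
    rw [TrivSqZeroExt.fst_mul, TrivSqZeroExt.fst_mul, TrivSqZeroExt.fst_natCast] at h0
    have hzz : z.fst * z.fst = 1 := mul_left_cancel₀ hn0 (by rw [← mul_assoc, h0, mul_one])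
    have h1 := congrArg TrivSqZeroExt.snd hd'
    simp only [TrivSqZeroExt.snd_mul, TrivSqZeroExt.fst_mul, TrivSqZeroExt.fst_natCast,
      TrivSqZeroExt.snd_natCast, smul_eq_mul, MulOpposite.smul_eq_mul_unop,
      MulOpposite.unop_op] at h1
    have hz1 : z.snd = 0 := by
      have hz0 : z.fst ≠ 0 := fun h => by rw [h, zero_mul] at hzz; exact zero_ne_one hzz
      have : (2 * (n : k) * z.fst) * z.snd = 0 := by linear_combination h1
      exact (mul_eq_zero.mp this).resolve_left (mul_ne_zero (mul_ne_zero h2 hn0) hz0)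
    have hzeq : z = TrivSqZeroExt.inl z.fst := TrivSqZeroExt.ext rfl (by simpa using hz1)
    refine ⟨(n : k) * z.fst, z.fst, e.repr (ρ.ρ s (e 1)) 0, ?_, by rw [hcyc s n hn], hzz,
      fun hsI => ?_⟩
    · rw [hU, hxn]
      conv_lhs => rw [hzeq]
      rw [← TrivSqZeroExt.inl_natCast, ← TrivSqZeroExt.inl_mul]
    · have h := hL1 _ (hI s hsI (e 1))
      rw [map_sub, Finsupp.sub_apply, ← matOf_apply ρ e s 1 1, hU] at h
      simp at h
      rw [sub_eq_zero] at h
      rw [h, TrivSqZeroExt.fst_one]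
  have hframe : ∀ s ∈ (padicPlace p).decompositionSubgroup ℚ, ∃ (x z c y : k),
      r s * Z = Z * !![x, c; 0, z] ∧ x = (r s).det * z ∧ z * z = 1 ∧
        (s ∈ (padicPlace p).inertiaSubgroupIn ℚ → z = 1) ∧
        b s * r s * Z + r s * sndM Q = sndM Q * !![x, c; 0, z] + y • (Z * Matrix.single 0 1 1) := by
    intro s hs
    obtain ⟨x, z, u, hU, hx, hz, hzI⟩ := key s hs
    refine ⟨x, z, u.fst, u.snd, ?_, hx, hz, hzI, ?_⟩
    · have h := congrArg fstM (hchange s)
      rw [hB, hU] at h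
      simp only [fstM_mul, fstM_add, fstM_one, fstM_epsM, fstM_inlM, add_zero, one_mul] at h
      rw [h]
      congr 1
      ext i j
      fin_cases i <;> fin_cases j <;> simp
    · have h := congrArg sndM (hchange s)
      rw [hB, hU] at h
      simp only [sndM_mul, fstM_mul, fstM_add, sndM_add, fstM_one, sndM_one, fstM_epsM, sndM_epsM,
        fstM_inlM, sndM_inlM, add_zero, zero_add, one_mul, mul_zero] at h
      rw [add_comm (b s * r s * Z), h, add_comm]
      congr 1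
      · congr 1
        ext i j
        fin_cases i <;> fin_cases j <;> simp
      · rw [← mul_smul_comm]
        congr 1
        ext i j
        fin_cases i <;> fin_cases j <;> simp [Matrix.single]
  have hcancel : ∀ (s : Gal) (x z c : k), r s * Z = Z * !![x, c; 0, z] →
      !![x, c; 0, z] * (Zi * r s⁻¹) = Zi := fun s x z c => upper_mul_inv_eq hZ hZ'
  have hE : ∀ (s : Gal) (x z c : k), r s * Z = Z * !![x, c; 0, z] → z * z = 1 →
      Matrix.single (0 : Fin 2) (1 : Fin 2) (1 : k) * Zi * r s⁻¹ =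
        z • (Matrix.single 0 1 1 * Zi) := fun s x z c h hz => by
    conv_rhs => rw [← hcancel s x z c h, ← mul_assoc _ !![x, c; 0, z], single_mul_upper,
      smul_mul_assoc, smul_smul, hz, one_smul]
    rw [mul_assoc]
  refine ⟨⟨Z, Zi, -(sndM Q * Zi), hZ, hZ', fun s hs => ?_, fun s hs => ?_, fun s hs => ?_⟩⟩
  · obtain ⟨x, z, c, -, h, hx, hz, -, -⟩ := hframe s hs
    exact ⟨x, z, c, h, hx, hz, hE s x z c h hz⟩
  · obtain ⟨x, z, c, -, h, hx, hz, hzI, -⟩ := hframe s ((Subgroup.map_subtype_le _) hs)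
    rw [hzI hs] at h hx
    exact ⟨x, c, h, by rw [hx, mul_one]⟩
  · obtain ⟨x, z, c, y, h, hx, hz, -, h1⟩ := hframe s hs
    refine ⟨y * z, ?_⟩
    have e : (b s * r s * Z + r s * sndM Q) * (Zi * r s⁻¹) =
        (sndM Q * !![x, c; 0, z] + y • (Z * Matrix.single 0 1 1)) * (Zi * r s⁻¹) := by rw [h1]
    rw [add_mul, add_mul, mul_assoc (sndM Q), hcancel s x z c h, smul_mul_assoc] at e
    have e1 : b s * r s * Z * (Zi * r s⁻¹) = b s := by
      rw [mul_assoc (b s * r s), ← mul_assoc Z, hZ, one_mul, mul_assoc, map_mul_inv, mul_one]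
    have e2 : Z * Matrix.single 0 1 1 * (Zi * r s⁻¹) = z • (Z * Matrix.single 0 1 1 * Zi) := by
      rw [mul_assoc Z, ← mul_assoc (Matrix.single 0 1 1) Zi, hE s x z c h hz, mul_smul_comm,
        mul_assoc Z]
    rw [e1, e2, smul_smul] at e
    rw [cobdLin_apply, ← eq_sub_iff_add_eq.mpr e |>.symm]
    simp only [mul_neg, neg_mul, mul_assoc]
    abel

omit [Finite k] in
/-- The classes of strictly ordinary deformations share a stable line: `N` spans it and `H` is the
diagonal element. -/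
theorem exists_line_of_ordinary (h2 : (2 : k) ≠ 0)
    (hcyc : ∀ (σ : Gal) (n : ℕ), (∀ μ : QBar, μ ^ p = 1 → σ μ = μ ^ n) → (r σ).det = (n : k))
    (V : Submodule k (Gal → M2 k)) (hV : V ≠ ⊥)
    (hb : ∀ b ∈ V, b ≠ 0 → ∃ (ρ : GaloisRepAdic (DualNumber k))
      (B : Basis (Fin 2) (DualNumber k) ρ.V), ρ.IsStrictOrdinaryAt p ∧ ρ.DetIsCyclotomic p ∧
        ∀ σ, matOf ρ B σ = (1 + epsM (b σ)) * inlM (r σ)) :
    ∃ N H : M2 k, H.trace = 0 ∧ N.trace = 0 ∧ LinearIndependent k ![N, H] ∧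
      (∀ s ∈ (padicPlace p).decompositionSubgroup ℚ, r s * N * r s⁻¹ = (r s).det • N) ∧
      (∀ s ∈ (padicPlace p).decompositionSubgroup ℚ, ∃ u : k, r s * H * r s⁻¹ - H = u • N) ∧
      ∀ b ∈ V, ∃ X : M2 k, ∀ s ∈ (padicPlace p).decompositionSubgroup ℚ,
        ∃ c : k, b s - cobdLin r X s = c • N := by
  obtain ⟨b₀, hb₀, hb₀ne⟩ := Submodule.exists_mem_ne_zero_of_ne_bot hV
  obtain ⟨ρ₀, B₀, ho, hd, hm⟩ := hb b₀ hb₀ hb₀ne
  obtain ⟨fr⟩ := nonempty_ordFrame hcyc h2 ho hd hm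
  set E12 : M2 k := Matrix.single 0 1 1 with hE12
  set Hd : M2 k := !![1, 0; 0, -1] with hHd
  obtain ⟨τ, hτ, hτζ⟩ := Mazur.Eisenstein.exists_inertia_inv
    (Local.padicPlace_liesOverPrime p) (Fact.out : p.Prime) 1
  have hdetτ : (r τ).det = -1 := by
    have hp : p.Prime := Fact.out
    rw [hcyc τ (p - 1) fun μ hμ => ?_]
    · rw [Nat.cast_sub hp.one_le, CharP.cast_eq_zero, Nat.cast_one, zero_sub]
    · have hμ0 : μ ≠ 0 := fun h => by rw [h, zero_pow hp.ne_zero] at hμ; exact zero_ne_one hμ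
      rw [hτζ μ (by rwa [pow_one]), pow_sub₀ μ hμ0 hp.one_le, hμ, one_mul, pow_one]
  -- two frames share the line
  have htri : ∀ {b b' : Gal → M2 k} (f : OrdFrame p r b) (f' : OrdFrame p r b'),
      (f.Zi * f'.Z) 1 0 = 0 := by
    intro b b' f f'
    obtain ⟨x, c, h, hx⟩ := f.inertia τ hτ
    obtain ⟨x', c', h', hx'⟩ := f'.inertia τ hτ
    have e : !![x, c; 0, 1] * (f.Zi * f'.Z) = (f.Zi * f'.Z) * !![x', c'; 0, 1] := by
      calc !![x, c; 0, 1] * (f.Zi * f'.Z) = f.Zi * (f.Z * !![x, c; 0, 1]) * (f.Zi * f'.Z) := by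
            rw [← mul_assoc f.Zi f.Z, f.inv_mul, one_mul]
        _ = f.Zi * (r τ * (f.Z * f.Zi) * f'.Z) := by rw [← h]; simp only [mul_assoc]
        _ = (f.Zi * f'.Z) * !![x', c'; 0, 1] := by
          rw [f.mul_inv, mul_one, h', mul_assoc]
    have e10 := congrFun (congrFun e 1) 0
    rw [hx', hdetτ] at e10
    simp [Matrix.mul_apply, Fin.sum_univ_two] at e10
    simp only [Matrix.mul_apply, Fin.sum_univ_two]
    refine (mul_eq_zero.mp (?_ : (2 : k) * _ = 0)).resolve_left h2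
    linear_combination e10
  refine ⟨fr.Z * E12 * fr.Zi, fr.Z * Hd * fr.Zi, ?_, ?_, ?_, fun s hs => ?_, fun s hs => ?_,
    fun b hbV => ?_⟩
  · rw [Matrix.trace_mul_comm, ← mul_assoc, fr.inv_mul, one_mul, hHd]
    simp [Matrix.trace_fin_two]
  · rw [Matrix.trace_mul_comm, ← mul_assoc, fr.inv_mul, one_mul, hE12]
    simp [Matrix.trace_fin_two, Matrix.single]
  · rw [LinearIndependent.pair_iff]
    intro s t hst
    have h := congrArg (fun M => fr.Zi * M * fr.Z) hst
    simp only [mul_add, add_mul, mul_smul_comm, smul_mul_assoc, mul_zero, zero_mul] at h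
    rw [show fr.Zi * (fr.Z * E12 * fr.Zi) * fr.Z = E12 by
        rw [← mul_assoc, ← mul_assoc, fr.inv_mul, one_mul, mul_assoc, fr.inv_mul, mul_one],
      show fr.Zi * (fr.Z * Hd * fr.Zi) * fr.Z = Hd by
        rw [← mul_assoc, ← mul_assoc, fr.inv_mul, one_mul, mul_assoc, fr.inv_mul, mul_one]] at h
    have h00 := congrFun (congrFun h 0) 0
    have h01 := congrFun (congrFun h 0) 1
    simp [hE12, hHd, Matrix.single] at h00 h01
    exact ⟨h01, h00⟩
  · obtain ⟨x, z, c, h, hx, hz, hE⟩ := fr.upper s hs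
    show r s * (fr.Z * E12 * fr.Zi) * r s⁻¹ = (r s).det • (fr.Z * E12 * fr.Zi)
    have e : !![x, c; 0, z] * E12 = x • E12 := by
      ext i j
      fin_cases i <;> fin_cases j <;>
        simp [hE12, Matrix.mul_apply, Matrix.single]
    calc r s * (fr.Z * E12 * fr.Zi) * r s⁻¹ = r s * fr.Z * (E12 * fr.Zi * r s⁻¹) := by
          simp only [mul_assoc]
      _ = z • (fr.Z * (!![x, c; 0, z] * E12) * fr.Zi) := by
          rw [hE12, hE, h, mul_smul_comm]; simp only [mul_assoc]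
      _ = _ := by rw [e, mul_smul_comm, smul_mul_assoc, smul_smul, hx, mul_left_comm, hz, mul_one]
  · obtain ⟨x, z, c, h, hx, hz, hE⟩ := fr.upper s hs
    refine ⟨-(2 * c * z), ?_⟩
    have e : !![x, c; 0, z] * Hd = Hd * !![x, c; 0, z] - (2 * c) • E12 := by
      ext i j
      fin_cases i <;> fin_cases j <;>
        simp [hE12, hHd, Matrix.mul_apply, Fin.sum_univ_two, Matrix.single]
      all_goals ring
    have hcan := upper_mul_inv_eq fr.mul_inv fr.inv_mul h
    calc r s * (fr.Z * Hd * fr.Zi) * r s⁻¹ - fr.Z * Hd * fr.Zi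
        = r s * fr.Z * Hd * (fr.Zi * r s⁻¹) - fr.Z * Hd * fr.Zi := by simp only [mul_assoc]
      _ = fr.Z * (!![x, c; 0, z] * Hd) * (fr.Zi * r s⁻¹) - fr.Z * Hd * fr.Zi := by
          rw [h]; simp only [mul_assoc]
      _ = -((2 * c) • (fr.Z * (E12 * fr.Zi * r s⁻¹))) := by
          rw [e, mul_sub, sub_mul, mul_smul_comm, smul_mul_assoc, mul_assoc fr.Z (Hd * _),
            mul_assoc Hd, hcan, mul_assoc fr.Z E12, mul_assoc E12 fr.Zi, mul_assoc fr.Z Hd]
          abel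
      _ = _ := by rw [hE12, hE, mul_smul_comm, smul_smul, neg_smul, mul_assoc fr.Z]
  · rcases eq_or_ne b 0 with rfl | hbne
    · exact ⟨0, fun s _ => ⟨0, by simp⟩⟩
    obtain ⟨ρ, B, ho', hd', hm'⟩ := hb b hbV hbne
    obtain ⟨f⟩ := nonempty_ordFrame hcyc h2 ho' hd' hm'
    refine ⟨f.X, fun s hs => ?_⟩
    obtain ⟨c, hc⟩ := f.line s hs
    set T := fr.Zi * f.Z with hT
    set Ti := f.Zi * fr.Z with hTi
    have e : T * E12 * Ti = (T 0 0 * Ti 1 1) • E12 := by
      have h1 : T 1 0 = 0 := htri fr f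
      have h2' : Ti 1 0 = 0 := htri f fr
      ext i j
      fin_cases i <;> fin_cases j <;>
        simp [hE12, Matrix.mul_apply, Fin.sum_univ_two, Matrix.single, h1, h2']
    refine ⟨c * (T 0 0 * Ti 1 1), ?_⟩
    rw [hc, mul_smul, ← smul_mul_assoc (T 0 0 * Ti 1 1), ← mul_smul_comm (T 0 0 * Ti 1 1) fr.Z, ← e,
      hT, hTi]
    congr 1
    calc f.Z * E12 * f.Zi = fr.Z * fr.Zi * f.Z * E12 * f.Zi * (fr.Z * fr.Zi) := by
          rw [fr.mul_inv, one_mul, mul_one]
      _ = _ := by simp only [mul_assoc]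

/-- The bound at `p` for strictly ordinary classes. -/
theorem finrank_le_ordinary (hp2 : p ≠ 2) (h2 : (2 : k) ≠ 0)
    (hr : GaloisFactorsThroughFiniteLevel r)
    (hcyc : ∀ (σ : Gal) (n : ℕ), (∀ μ : QBar, μ ^ p = 1 → σ μ = μ ^ n) → (r σ).det = (n : k))
    (V : Submodule k (Gal → M2 k)) [Module.Finite k V]
    (hcoc : ∀ b ∈ V, IsAdCocycle r b) (hlev : ∀ b ∈ V, IsFiniteLevel b)
    (hb : ∀ b ∈ V, b ≠ 0 → ∃ (ρ : GaloisRepAdic (DualNumber k))
      (B : Basis (Fin 2) (DualNumber k) ρ.V), ρ.IsStrictOrdinaryAt p ∧ ρ.DetIsCyclotomic p ∧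
        ∀ σ, matOf ρ B σ = (1 + epsM (b σ)) * inlM (r σ)) :
    finrank k V ≤ finrank k (V ⊓ cobdOn r ((padicPlace p).decompositionSubgroup ℚ) :
        Submodule k (Gal → M2 k)) +
      finrank k (fixedOn r ((padicPlace p).decompositionSubgroup ℚ)) + 1 := by
  rcases eq_or_ne V ⊥ with rfl | hV
  · simp [finrank_bot]
  obtain ⟨N, H, hH, hN, hli, h1, h2', h3⟩ := exists_line_of_ordinary h2 hcyc V hV hb
  exact finrank_le_of_line hp2 h2 hr (fun σ => (r σ).det) hcyc V hcoc hlev hH hN hli h1 h2' h3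

end Fermat.Agent.CFT.Tangent
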